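/-
[45a2-H3-BRIDGE] (helper10): the low-degree-3 API for Mathlib's `groupCohomology A 3`:
explicit `3`-cocycles `G × G × G → A`, the class map `H3π`, its kernel, functoriality.
Mathlib only.
-/
import Mathlib

set_option autoImplicit false
set_option linter.unusedSectionVars false

universe u

open CategoryTheory groupCohomology

namespace Fermat.Agent.S55.H3Bridge10

variable {k G : Type u} [CommRing k] [Group G] (A : Rep k G)

/-! ### General degree: a class vanishes iff the cocycle is a coboundary -/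

/-- The sequence `Cⁿ → Zⁿ⁺¹ → Hⁿ⁺¹` is exact at `Zⁿ⁺¹`, elementwise. -/
theorem π_eq_zero_iff_exists {n : ℕ} (x : cocycles A (n + 1)) :
    π A (n + 1) x = 0 ↔ ∃ y : (inhomogeneousCochains A).X n, toCocycles A n (n + 1) y = x := by
  have hrel : (ComplexShape.up ℕ).prev (n + 1) = n := by simp
  let S : ShortComplex (ModuleCat k) :=
    ShortComplex.mk (toCocycles A n (n + 1)) (π A (n + 1))
      ((inhomogeneousCochains A).toCycles_comp_homologyπ n (n + 1))
  have hS : S.Exact :=
    S.exact_of_g_is_cokernel ((inhomogeneousCochains A).homologyIsCokernel n (n + 1) hrel)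
  constructor
  · intro hx
    exact (ShortComplex.moduleCat_exact_iff S).1 hS x hx
  · rintro ⟨y, rfl⟩
    have := (inhomogeneousCochains A).toCycles_comp_homologyπ n (n + 1)
    exact congrArg (fun f => f.hom y) this

/-- The class of an explicit cocycle vanishes iff the cocycle is an explicit coboundary. -/
theorem π_cocyclesMk_eq_zero_iff {n : ℕ} (f : (Fin (n + 1) → G) → A)
    (h : inhomogeneousCochains.d A (n + 1) f = 0) :
    π A (n + 1) (cocyclesMk f h) = 0 ↔
      ∃ y : (Fin n → G) → A, inhomogeneousCochains.d A n y = f := by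
  rw [π_eq_zero_iff_exists]
  have hinj : Function.Injective (iCocycles A (n + 1)) :=
    (ModuleCat.mono_iff_injective _).1 inferInstance
  have key : ∀ y : (inhomogeneousCochains A).X n,
      iCocycles A (n + 1) (toCocycles A n (n + 1) y) = inhomogeneousCochains.d A n y := by
    intro y
    have h1 := (inhomogeneousCochains A).toCycles_i n (n + 1)
    have h2 := congrArg (fun f => f.hom y) h1
    rw [← inhomogeneousCochains.d_def]
    exact h2
  constructor
  · rintro ⟨y, hy⟩
    refine ⟨y, ?_⟩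
    rw [← key, hy, iCocycles_mk]
  · rintro ⟨y, hy⟩
    refine ⟨y, hinj ?_⟩
    rw [key, hy, iCocycles_mk]

/-! ### Explicit degree `3` -/

/-- `(Fin 2 → G) ≃ G × G`. -/
def e₂ : (Fin 2 → G) ≃ G × G := piFinTwoEquiv fun _ => G

/-- `(Fin 3 → G) ≃ G × G × G` (the equivalence behind Mathlib's `cochainsIso₃`). -/
def e₃ : (Fin 3 → G) ≃ G × G × G :=
  (Fin.consEquiv _).symm.trans ((Equiv.refl G).prodCongr (piFinTwoEquiv fun _ => G))

/-- `(Fin 4 → G) ≃ G × G × G × G`. -/
def e₄ : (Fin 4 → G) ≃ G × G × G × G :=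
  (Fin.consEquiv _).symm.trans ((Equiv.refl G).prodCongr e₃)

@[simp] lemma e₂_apply (g : Fin 2 → G) : e₂ g = (g 0, g 1) := rfl
@[simp] lemma e₃_apply (g : Fin 3 → G) : e₃ g = (g 0, g 1, g 2) := rfl
@[simp] lemma e₄_apply (g : Fin 4 → G) : e₄ g = (g 0, g 1, g 2, g 3) := rfl

/-- The inhomogeneous differential `C³(G, A) → C⁴(G, A)` on explicit tuples. -/
def d₃₄ : (G × G × G → A) →ₗ[k] (G × G × G × G → A) where
  toFun f x :=
    A.ρ x.1 (f (x.2.1, x.2.2.1, x.2.2.2)) - f (x.1 * x.2.1, x.2.2.1, x.2.2.2)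
      + f (x.1, x.2.1 * x.2.2.1, x.2.2.2) - f (x.1, x.2.1, x.2.2.1 * x.2.2.2)
      + f (x.1, x.2.1, x.2.2.1)
  map_add' f g := by
    funext x
    simp only [Pi.add_apply, map_add]
    abel
  map_smul' r f := by
    funext x
    simp only [Pi.smul_apply, map_smul, RingHom.id_apply, smul_add, smul_sub]

lemma d₃₄_apply (f : G × G × G → A) (g h i j : G) :
    d₃₄ A f (g, h, i, j) =
      A.ρ g (f (h, i, j)) - f (g * h, i, j) + f (g, h * i, j) - f (g, h, i * j) + f (g, h, i) :=
  rfl

/-- The abstract differential `d A 3` in explicit terms. -/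
lemma d_three_apply (f : G × G × G → A) (g : Fin 4 → G) :
    inhomogeneousCochains.d A 3 (fun x : Fin 3 → G => f (e₃ x)) g = d₃₄ A f (e₄ g) := by
  rw [inhomogeneousCochains.d_hom_apply]
  rw [Fin.sum_univ_four]
  simp only [e₄_apply, d₃₄_apply, e₃_apply]
  have h00 : Fin.contractNth 0 (fun x1 x2 => x1 * x2) g 0 = g 0 * g 1 := rfl
  have h01 : Fin.contractNth 0 (fun x1 x2 => x1 * x2) g 1 = g 2 := rfl
  have h02 : Fin.contractNth 0 (fun x1 x2 => x1 * x2) g 2 = g 3 := rfl
  have h10 : Fin.contractNth 1 (fun x1 x2 => x1 * x2) g 0 = g 0 := rfl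
  have h11 : Fin.contractNth 1 (fun x1 x2 => x1 * x2) g 1 = g 1 * g 2 := rfl
  have h12 : Fin.contractNth 1 (fun x1 x2 => x1 * x2) g 2 = g 3 := rfl
  have h20 : Fin.contractNth 2 (fun x1 x2 => x1 * x2) g 0 = g 0 := rfl
  have h21 : Fin.contractNth 2 (fun x1 x2 => x1 * x2) g 1 = g 1 := rfl
  have h22 : Fin.contractNth 2 (fun x1 x2 => x1 * x2) g 2 = g 2 * g 3 := rfl
  have h30 : Fin.contractNth 3 (fun x1 x2 => x1 * x2) g 0 = g 0 := rfl
  have h31 : Fin.contractNth 3 (fun x1 x2 => x1 * x2) g 1 = g 1 := rfl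
  have h32 : Fin.contractNth 3 (fun x1 x2 => x1 * x2) g 2 = g 2 := rfl
  rw [h00, h01, h02, h10, h11, h12, h20, h21, h22, h30, h31, h32]
  have e0 : (Fin.succ 0 : Fin 4) = 1 := rfl
  have e1 : (Fin.succ 1 : Fin 4) = 2 := rfl
  have e2 : (Fin.succ 2 : Fin 4) = 3 := rfl
  rw [e0, e1, e2]
  have p0 : ((-1 : k)) ^ (((0 : Fin 4) : ℕ) + 1) = -1 := by norm_num
  have p1 : ((-1 : k)) ^ (((1 : Fin 4) : ℕ) + 1) = 1 := by norm_num
  have p2 : ((-1 : k)) ^ (((2 : Fin 4) : ℕ) + 1) = -1 := by
    have : (((2 : Fin 4) : ℕ) + 1) = 3 := rfl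
    rw [this]; norm_num
  have p3 : ((-1 : k)) ^ (((3 : Fin 4) : ℕ) + 1) = 1 := by
    have : (((3 : Fin 4) : ℕ) + 1) = 4 := rfl
    rw [this]; norm_num
  rw [p0, p1, p2, p3]
  simp only [neg_smul, one_smul]
  abel

/-- The abstract differential `d A 2` in explicit terms. -/
lemma d_two_apply (y : G × G → A) (g : Fin 3 → G) :
    inhomogeneousCochains.d A 2 (fun x : Fin 2 → G => y (e₂ x)) g = (d₂₃ A).hom y (e₃ g) := by
  rw [inhomogeneousCochains.d_hom_apply]
  rw [Fin.sum_univ_three]
  simp only [e₃_apply, d₂₃_hom_apply, e₂_apply]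
  have h00 : Fin.contractNth 0 (fun x1 x2 => x1 * x2) g 0 = g 0 * g 1 := rfl
  have h01 : Fin.contractNth 0 (fun x1 x2 => x1 * x2) g 1 = g 2 := rfl
  have h10 : Fin.contractNth 1 (fun x1 x2 => x1 * x2) g 0 = g 0 := rfl
  have h11 : Fin.contractNth 1 (fun x1 x2 => x1 * x2) g 1 = g 1 * g 2 := rfl
  have h20 : Fin.contractNth 2 (fun x1 x2 => x1 * x2) g 0 = g 0 := rfl
  have h21 : Fin.contractNth 2 (fun x1 x2 => x1 * x2) g 1 = g 1 := rfl
  rw [h00, h01, h10, h11, h20, h21]
  have e0 : (Fin.succ 0 : Fin 3) = 1 := rfl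
  have e1 : (Fin.succ 1 : Fin 3) = 2 := rfl
  rw [e0, e1]
  have p0 : ((-1 : k)) ^ (((0 : Fin 3) : ℕ) + 1) = -1 := by norm_num
  have p1 : ((-1 : k)) ^ (((1 : Fin 3) : ℕ) + 1) = 1 := by norm_num
  have p2 : ((-1 : k)) ^ (((2 : Fin 3) : ℕ) + 1) = -1 := by
    have : (((2 : Fin 3) : ℕ) + 1) = 3 := rfl
    rw [this]; norm_num
  rw [p0, p1, p2]
  simp only [neg_smul, one_smul]
  abel

/-- `d₃₄ ∘ d₂₃ = 0`. -/
lemma d₃₄_comp_d₂₃ (y : G × G → A) : d₃₄ A ((d₂₃ A).hom y) = 0 := by
  funext x
  obtain ⟨g, h, i, j⟩ := x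
  simp only [d₃₄_apply, d₂₃_hom_apply, map_add, map_sub, Pi.zero_apply, mul_assoc,
    ← Module.End.mul_apply, ← map_mul]
  abel

/-- explicit `3`-cocycles -/
def cocycles₃ : Submodule k (G × G × G → A) := LinearMap.ker (d₃₄ A)

/-- explicit `3`-coboundaries -/
def coboundaries₃ : Submodule k (G × G × G → A) := LinearMap.range (d₂₃ A).hom

lemma mem_cocycles₃_iff (f : G × G × G → A) : f ∈ cocycles₃ A ↔ d₃₄ A f = 0 := LinearMap.mem_ker

lemma mem_cocycles₃_iff' (f : G × G × G → A) :
    f ∈ cocycles₃ A ↔ ∀ g h i j : G,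
      A.ρ g (f (h, i, j)) - f (g * h, i, j) + f (g, h * i, j) - f (g, h, i * j) + f (g, h, i)
        = 0 := by
  rw [mem_cocycles₃_iff, funext_iff]
  constructor
  · intro H g h i j
    exact H (g, h, i, j)
  · rintro H ⟨g, h, i, j⟩
    exact H g h i j

lemma mem_coboundaries₃_iff (f : G × G × G → A) :
    f ∈ coboundaries₃ A ↔ ∃ y : G × G → A, (d₂₃ A).hom y = f := LinearMap.mem_range

lemma coboundaries₃_le_cocycles₃ : coboundaries₃ A ≤ cocycles₃ A := by
  rintro _ ⟨y, rfl⟩
  exact (mem_cocycles₃_iff A _).2 (d₃₄_comp_d₂₃ A y)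

lemma d_three_eq_zero (x : cocycles₃ A) :
    inhomogeneousCochains.d A 3 (fun g : Fin 3 → G => (x : G × G × G → A) (e₃ g)) = 0 := by
  funext g
  rw [d_three_apply, (mem_cocycles₃_iff A _).1 x.2]
  rfl

/-- The abstract cocycle attached to an explicit `3`-cocycle. -/
noncomputable def toCocycle (x : cocycles₃ A) : cocycles A 3 :=
  cocyclesMk (fun g : Fin 3 → G => (x : G × G × G → A) (e₃ g)) (d_three_eq_zero A x)

lemma iCocycles_toCocycle (x : cocycles₃ A) :
    iCocycles A 3 (toCocycle A x) = fun g : Fin 3 → G => (x : G × G × G → A) (e₃ g) :=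
  iCocycles_mk _ (d_three_eq_zero A x)

lemma iCocycles_injective (n : ℕ) : Function.Injective (iCocycles A n) :=
  (ModuleCat.mono_iff_injective _).1 inferInstance

/-- The class map from explicit `3`-cocycles to `H³(G, A)`. -/
noncomputable def H3π : cocycles₃ A →ₗ[k] groupCohomology A 3 where
  toFun x := π A 3 (toCocycle A x)
  map_add' x y := by
    have : toCocycle A (x + y) = toCocycle A x + toCocycle A y := by
      apply iCocycles_injective A 3
      rw [map_add, iCocycles_toCocycle, iCocycles_toCocycle, iCocycles_toCocycle]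
      rfl
    rw [this, map_add]
  map_smul' r x := by
    have : toCocycle A (r • x) = r • toCocycle A x := by
      apply iCocycles_injective A 3
      rw [map_smul, iCocycles_toCocycle, iCocycles_toCocycle]
      rfl
    rw [this, map_smul]
    rfl

lemma H3π_apply (x : cocycles₃ A) : H3π A x = π A 3 (toCocycle A x) := rfl

theorem H3π_surjective : Function.Surjective (H3π A) := by
  intro z
  induction z using groupCohomology_induction_on with
  | h z =>
    have hz : d₃₄ A (fun x : G × G × G => iCocycles A 3 z (e₃.symm x)) = 0 := by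
      funext x
      have h1 := d_three_apply A (fun x : G × G × G => iCocycles A 3 z (e₃.symm x)) (e₄.symm x)
      rw [Equiv.apply_symm_apply] at h1
      rw [← h1]
      have h2 : (fun x : Fin 3 → G => iCocycles A 3 z (e₃.symm (e₃ x))) = iCocycles A 3 z := by
        funext x
        rw [Equiv.symm_apply_apply]
      rw [h2]
      have h3 : inhomogeneousCochains.d A 3 (iCocycles A 3 z) = 0 := by
        have := (inhomogeneousCochains A).iCycles_d 3 4
        have := congrArg (fun f => f.hom z) this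
        rw [← inhomogeneousCochains.d_def]
        exact this
      rw [h3]
      rfl
    refine ⟨⟨_, (mem_cocycles₃_iff A _).2 hz⟩, ?_⟩
    rw [H3π_apply]
    congr 1
    apply iCocycles_injective A 3
    rw [iCocycles_toCocycle]
    funext g
    simp only [Equiv.symm_apply_apply]

/-- The class of an explicit `3`-cocycle vanishes iff it is an explicit coboundary. -/
theorem H3π_eq_zero_iff (x : cocycles₃ A) :
    H3π A x = 0 ↔ (x : G × G × G → A) ∈ coboundaries₃ A := by
  rw [H3π_apply, toCocycle, π_cocyclesMk_eq_zero_iff A _ (d_three_eq_zero A x),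
    mem_coboundaries₃_iff]
  constructor
  · rintro ⟨y, hy⟩
    refine ⟨fun g => y (e₂.symm g), ?_⟩
    funext g
    have h1 := d_two_apply A (fun g => y (e₂.symm g)) (e₃.symm g)
    rw [Equiv.apply_symm_apply] at h1
    rw [← h1]
    have h2 : (fun x : Fin 2 → G => y (e₂.symm (e₂ x))) = y := by
      funext x
      rw [Equiv.symm_apply_apply]
    rw [h2, hy]
    show (x : G × G × G → A) (e₃ (e₃.symm g)) = _
    rw [Equiv.apply_symm_apply]
  · rintro ⟨y, hy⟩
    refine ⟨fun g => y (e₂ g), ?_⟩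
    funext g
    rw [d_two_apply, hy]

theorem H3π_eq_iff (x y : cocycles₃ A) :
    H3π A x = H3π A y ↔ ((x - y : cocycles₃ A) : G × G × G → A) ∈ coboundaries₃ A := by
  rw [← sub_eq_zero, ← map_sub, H3π_eq_zero_iff]

/-! ### Functoriality under a change of group -/

section Functoriality

variable {A}
variable {H : Type u} [Group H] {B : Rep k H} (f : H →* G) (φ : Rep.res f A ⟶ B)

lemma d₃₄_map (x : G × G × G → A) (g h i j : H) :
    d₃₄ B (fun y : H × H × H => φ.hom (x (f y.1, f y.2.1, f y.2.2))) (g, h, i, j) =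
      φ.hom (d₃₄ A x (f g, f h, f i, f j)) := by
  simp only [d₃₄_apply, map_add, map_sub, map_mul]
  have := Rep.hom_comm_apply φ g (x (f h, f i, f j))
  rw [← this]
  rfl

/-- The map on explicit `3`-cocycles induced by `f : H →* G` and `φ : Res(f)(A) ⟶ B`. -/
def mapCocycles₃ : cocycles₃ A →ₗ[k] cocycles₃ B where
  toFun x := ⟨fun y : H × H × H => φ.hom ((x : G × G × G → A) (f y.1, f y.2.1, f y.2.2)), by
    rw [mem_cocycles₃_iff]
    funext y
    obtain ⟨g, h, i, j⟩ := y
    rw [d₃₄_map, (mem_cocycles₃_iff A _).1 x.2]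
    simp⟩
  map_add' x y := by
    ext z
    simp
  map_smul' r x := by
    ext z
    simp

@[simp] lemma mapCocycles₃_apply (x : cocycles₃ A) (g h i : H) :
    (mapCocycles₃ f φ x : H × H × H → B) (g, h, i) =
      φ.hom ((x : G × G × G → A) (f g, f h, f i)) := rfl

/-- Degree-3 analogue of Mathlib's `H2π_comp_map`. -/
theorem map_H3π (x : cocycles₃ A) :
    (groupCohomology.map f φ 3).hom (H3π A x) = H3π B (mapCocycles₃ f φ x) := by
  rw [H3π_apply, H3π_apply]
  have h1 := congrArg (fun m => m.hom (toCocycle A x)) (π_map f φ 3)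
  simp only [ModuleCat.hom_comp, LinearMap.comp_apply] at h1
  rw [h1]
  congr 1
  apply iCocycles_injective B 3
  rw [iCocycles_toCocycle]
  have h2 := congrArg (fun m => m.hom (toCocycle A x))
    (HomologicalComplex.cyclesMap_i (cochainsMap f φ) 3)
  simp only [ModuleCat.hom_comp, LinearMap.comp_apply] at h2
  rw [h2, iCocycles_toCocycle]
  rfl

end Functoriality

end Fermat.Agent.S55.H3Bridge10
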