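/-
[45a2-H3-BRIDGE] (helper10): from "every class of `H³` of the finite quotients dies at a deeper
level" (Mathlib `groupCohomology _ 3`) to `CD3.H3Vanishes` on explicit level cochains.
-/
import Fermat.Agent.S55.H3Bridge10.LowDegree3
import Fermat.Agent.S55.CD3.Cochain

set_option autoImplicit false
set_option linter.unusedSectionVars false

universe u

open CategoryTheory groupCohomology

namespace Fermat.Agent.S55.H3Bridge10

open Fermat.Agent.S55.Profin15 Fermat.Agent.S55.CD3

/-! ### One-step form -/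

section OneStep

variable {k Q Q' : Type u} [CommRing k] [Group Q] [Group Q']

/-- If the class of an explicit `3`-cocycle `x` of `Q` dies under `map r φ`, then the transported
cocycle is an explicit coboundary on `Q'`. -/
theorem exists_d₂₃_eq_of_map_eq_zero (r : Q' →* Q) {B : Rep k Q} {B' : Rep k Q'}
    (φ : Rep.res r B ⟶ B') (x : cocycles₃ B)
    (h : (groupCohomology.map r φ 3).hom (H3π B x) = 0) :
    ∃ y : Q' × Q' → B', ∀ g h i : Q',
      B'.ρ g (y (h, i)) - y (g * h, i) + y (g, h * i) - y (g, h) =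
        φ.hom ((x : Q × Q × Q → B) (r g, r h, r i)) := by
  rw [map_H3π, H3π_eq_zero_iff, mem_coboundaries₃_iff] at h
  obtain ⟨y, hy⟩ := h
  refine ⟨y, fun g h i => ?_⟩
  have := congrFun hy (g, h, i)
  rw [d₂₃_hom_apply] at this
  exact this

end OneStep

/-! ### Finite models of a level -/

section Models

variable {k V A : Type u} [CommRing k] [Group V] [AddCommGroup A] [Module k A]

/-- A finite-level model of the `V`-module `A`: a level `U`, a presentation `π : V ↠ Q` of the
quotient `V / U` (e.g. a Galois group `Gal(L/K)`), and a `Q`-representation `B` on (a copy of)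
`A` through which the action of `V` factors. -/
structure FinModel (𝒱 : LevelStr V) (ρ : Representation k V A) where
  /-- the level -/
  U : Subgroup V
  hU : U ∈ 𝒱.levels
  /-- the group presenting `V / U` -/
  Q : Type u
  [grp : Group Q]
  /-- the projection -/
  π : V →* Q
  surj : Function.Surjective π
  ker_eq : π.ker = U
  /-- the descended representation -/
  B : Rep k Q
  /-- the identification of the underlying modules -/
  e : B.V ≃ₗ[k] A
  desc : ∀ v b, ρ v (e b) = e (B.ρ (π v) b)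

attribute [instance] FinModel.grp

variable {𝒱 : LevelStr V} {ρ : Representation k V A}

namespace FinModel

variable (m : FinModel 𝒱 ρ)

/-- a set-theoretic section of the projection -/
noncomputable def sec (q : m.Q) : V := Function.surjInv m.surj q

lemma π_sec (q : m.Q) : m.π (m.sec q) = q := Function.surjInv_eq m.surj q

lemma sec_π_mem (v : V) : v⁻¹ * m.sec (m.π v) ∈ m.U := by
  rw [← m.ker_eq, MonoidHom.mem_ker, map_mul, map_inv, π_sec, inv_mul_cancel]

/-- the descent of a `3`-cochain on `V` to `Q` -/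
noncomputable def desc₃ (f : V × V × V → A) : m.Q × m.Q × m.Q → m.B :=
  fun q => m.e.symm (f (m.sec q.1, m.sec q.2.1, m.sec q.2.2))

/-- the pullback of a `2`-cochain on `Q` to `V` -/
def pull₂ (y : m.Q × m.Q → m.B) : V × V → A := fun v => m.e (y (m.π v.1, m.π v.2))

lemma e_desc₃ (f : V × V × V → A)
    (hf : ∀ g g' g'' s s' s'', s ∈ m.U → s' ∈ m.U → s'' ∈ m.U →
      f (g * s, g' * s', g'' * s'') = f (g, g', g''))
    (g h i : V) : m.e (m.desc₃ f (m.π g, m.π h, m.π i)) = f (g, h, i) := by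
  simp only [desc₃, LinearEquiv.apply_symm_apply]
  have := hf g h i _ _ _ (m.sec_π_mem g) (m.sec_π_mem h) (m.sec_π_mem i)
  simpa only [mul_inv_cancel_left] using this

lemma desc₃_mem_cocycles₃ (f : V × V × V → A)
    (hf : ∀ g g' g'' s s' s'', s ∈ m.U → s' ∈ m.U → s'' ∈ m.U →
      f (g * s, g' * s', g'' * s'') = f (g, g', g''))
    (hf0 : d34 ρ f = 0) : m.desc₃ f ∈ cocycles₃ m.B := by
  rw [mem_cocycles₃_iff']
  intro q1 q2 q3 q4
  obtain ⟨g1, rfl⟩ := m.surj q1
  obtain ⟨g2, rfl⟩ := m.surj q2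
  obtain ⟨g3, rfl⟩ := m.surj q3
  obtain ⟨g4, rfl⟩ := m.surj q4
  apply m.e.injective
  have h0 := congrFun hf0 (g1, g2, g3, g4)
  rw [d34_apply, Pi.zero_apply] at h0
  simp only [map_add, map_sub, map_zero, ← map_mul, ← m.desc, m.e_desc₃ f hf]
  exact h0

lemma isConst₂_pull₂ (y : m.Q × m.Q → m.B) : 𝒱.IsConst₂ (m.pull₂ y) := by
  refine ⟨m.U, m.hU, fun g g' s s' hs hs' => ?_⟩
  have h1 : m.π s = 1 := by rw [← MonoidHom.mem_ker, m.ker_eq]; exact hs
  have h2 : m.π s' = 1 := by rw [← MonoidHom.mem_ker, m.ker_eq]; exact hs'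
  simp only [pull₂, map_mul, h1, h2, mul_one]

lemma d23_pull₂ (y : m.Q × m.Q → m.B) (g h i : V) :
    d23 ρ (m.pull₂ y) (g, h, i) = m.e ((d₂₃ m.B).hom y (m.π g, m.π h, m.π i)) := by
  simp only [d23_apply, pull₂, d₂₃_hom_apply, map_add, map_sub, map_mul, m.desc]

end FinModel

/-- **Bridge.** Let `P` be a class of finite models. If every level contains the level of a
model in `P`, and every class of `H³` of every model in `P` dies in some other finite model
(along a compatible transition map), then the level `H³` of `ρ` vanishes on explicit cochains. -/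
theorem h3Vanishes_of_finModels' (P : FinModel 𝒱 ρ → Prop)
    (hmodels : ∀ U ∈ 𝒱.levels, ∃ m : FinModel 𝒱 ρ, P m ∧ m.U ≤ U)
    (hdies : ∀ (m : FinModel 𝒱 ρ), P m → ∀ x : groupCohomology m.B 3,
      ∃ (m' : FinModel 𝒱 ρ) (r : m'.Q →* m.Q) (φ : Rep.res r m.B ⟶ m'.B),
        (∀ v, r (m'.π v) = m.π v) ∧ (∀ b, m'.e (φ.hom b) = m.e b) ∧
        (groupCohomology.map r φ 3).hom x = 0) :
    H3Vanishes 𝒱 ρ := by
  intro f hfL hf0
  obtain ⟨U, hU, hfU⟩ := hfL
  obtain ⟨m, hPm, hmU⟩ := hmodels U hU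
  have hf : ∀ g g' g'' s s' s'', s ∈ m.U → s' ∈ m.U → s'' ∈ m.U →
      f (g * s, g' * s', g'' * s'') = f (g, g', g'') :=
    fun g g' g'' s s' s'' hs hs' hs'' => hfU g g' g'' s s' s'' (hmU hs) (hmU hs') (hmU hs'')
  let x : cocycles₃ m.B := ⟨m.desc₃ f, m.desc₃_mem_cocycles₃ f hf hf0⟩
  obtain ⟨m', r, φ, hr, hφ, hzero⟩ := hdies m hPm (H3π m.B x)
  obtain ⟨y, hy⟩ := exists_d₂₃_eq_of_map_eq_zero r φ x hzero
  refine ⟨m'.pull₂ y, m'.isConst₂_pull₂ y, ?_⟩
  funext ⟨g, h, i⟩
  rw [m'.d23_pull₂, d₂₃_hom_apply, hy, hr, hr, hr, hφ]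
  exact m.e_desc₃ f hf g h i

/-- **Bridge**, all finite models. -/
theorem h3Vanishes_of_finModels
    (hmodels : ∀ U ∈ 𝒱.levels, ∃ m : FinModel 𝒱 ρ, m.U ≤ U)
    (hdies : ∀ (m : FinModel 𝒱 ρ) (x : groupCohomology m.B 3),
      ∃ (m' : FinModel 𝒱 ρ) (r : m'.Q →* m.Q) (φ : Rep.res r m.B ⟶ m'.B),
        (∀ v, r (m'.π v) = m.π v) ∧ (∀ b, m'.e (φ.hom b) = m.e b) ∧
        (groupCohomology.map r φ 3).hom x = 0) :
    H3Vanishes 𝒱 ρ :=
  h3Vanishes_of_finModels' (fun _ => True)
    (fun U hU => let ⟨m, hm⟩ := hmodels U hU; ⟨m, trivial, hm⟩)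
    (fun m _ x => hdies m x)

end Models

/-! ### Abstract quotients `V ⧸ U`, trivial coefficients -/

section AbstractQuotient

variable {k V : Type u} [CommRing k] [Group V]

/-- The identity of `k` as a morphism `Res(r)(trivial) ⟶ trivial`. -/
noncomputable def trivHom {Q Q' : Type u} [Group Q] [Group Q'] (r : Q' →* Q) :
    Rep.res r (Rep.trivial k Q k) ⟶ Rep.trivial k Q' k :=
  Rep.ofHom (ρ := (Rep.res r (Rep.trivial k Q k)).ρ) (σ := (Rep.trivial k Q' k).ρ)
    (LinearMap.intertwiningMap_of_isIntertwiningMap _ _ (LinearMap.id (R := k) (M := k))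
      (fun _ _ => rfl))

@[simp] lemma trivHom_hom_apply {Q Q' : Type u} [Group Q] [Group Q'] (r : Q' →* Q) (a : k) :
    (trivHom (k := k) r).hom a = a := rfl

/-- the finite model `V ⧸ U` of the trivial module `k` -/
noncomputable def trivModel (𝒱 : LevelStr V) (U : Subgroup V) [U.Normal] (hU : U ∈ 𝒱.levels) :
    FinModel 𝒱 (Representation.trivial k V k) where
  U := U
  hU := hU
  Q := V ⧸ U
  π := QuotientGroup.mk' U
  surj := QuotientGroup.mk'_surjective U
  ker_eq := QuotientGroup.ker_mk' U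
  B := Rep.trivial k (V ⧸ U) k
  e := LinearEquiv.refl k k
  desc := fun _ _ => rfl

/-- **Bridge, abstract quotients, trivial coefficients.** If every class of
`H³(V ⧸ U, k)` dies in `H³(V ⧸ U', k)` for some deeper level `U'`, then the level `H³` of the
trivial module `k` vanishes on explicit cochains. -/
theorem h3Vanishes_trivial_of_quotients (𝒱 : LevelStr V)
    (hfin : ∀ (U : Subgroup V) [U.Normal], U ∈ 𝒱.levels →
      ∀ x : groupCohomology (Rep.trivial k (V ⧸ U) k) 3,
        ∃ (U' : Subgroup V) (_ : U'.Normal) (_ : U' ∈ 𝒱.levels) (hle : U' ≤ U),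
          (groupCohomology.map (QuotientGroup.map U' U (MonoidHom.id V) (fun _ hx => hle hx))
            (trivHom _) 3).hom x = 0) :
    H3Vanishes 𝒱 (Representation.trivial k V k) := by
  refine h3Vanishes_of_finModels'
    (fun m => ∃ (U : Subgroup V) (hN : U.Normal) (hU : U ∈ 𝒱.levels), m = trivModel 𝒱 U hU)
    (fun U hU => ?_) ?_
  · have hN := 𝒱.normal U hU
    exact ⟨trivModel 𝒱 U hU, ⟨U, hN, hU, rfl⟩, le_rfl⟩
  · rintro _ ⟨U, hN, hU, rfl⟩ x
    obtain ⟨U', hN', hU', hle, hx⟩ := hfin U hU x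
    refine ⟨trivModel 𝒱 U' hU', QuotientGroup.map U' U (MonoidHom.id V) (fun _ hx => hle hx),
      trivHom _, fun v => rfl, fun b => rfl, hx⟩

end AbstractQuotient

end Fermat.Agent.S55.H3Bridge10
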